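import Fermat.Agent.S13.H129.AtTwo

/-!
# WALL-q, leaf ODD-VACUOUS, abstract core (helper852)

Setting of `S13/H129/AtTwo.lean`: `K` a field, `v : Valuation K Γ₀`, `W : y² + xy = x³ + a₂x² + a₄x`
with `v`-integral coefficients, `v a₄ < 1`, `v 2 < 1` (a node at the origin in residue
characteristic two), and `φ : K ≃ₐ[S] K` congruent to `t ↦ t²` on the `v`-integers (a Frobenius
element at a place over `2`).

* `val_y_sub_lt_or`   : two integral points with congruent `x` have congruent or opposite `y`;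
* `frob_smul_eq_two_nsmul_or_neg` : if every `n`-torsion point has unit `x`-coordinate
  (`n` a `v`-unit), then `φ Q = 2 Q` or `φ Q = - 2 Q` for every `n`-torsion point `Q`
  (duplication formula `x(2Q) ≡ x(Q)² mod 𝔪`, same-reduction lemma (C2) and (C1b));
* `det_eq_four_of_forall_eq_or_eq_neg` : linear algebra, a linear map of a plane over `𝔽_p`
  (`p` odd) with `Φ x = 2 x ∨ Φ x = - 2 x` for all `x` has determinant `4`.
-/

set_option autoImplicit false
set_option linter.unusedSectionVars false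
set_option linter.unusedVariables false

namespace Fermat.Agent.Ribet.H852

open WeierstrassCurve WeierstrassCurve.Affine
open Fermat.Agent.S05 Fermat.Agent.S05.SameRed Fermat.Agent.S13.H129

section valuation

variable {K : Type*} [Field K] [DecidableEq K]
  {Γ₀ : Type*} [LinearOrderedCommGroupWithZero Γ₀]
  {W : Affine K} {v : Valuation K Γ₀}

/-- Two `v`-integral points of `W` with congruent `x`-coordinates have congruent or opposite
`y`-coordinates. -/
lemma val_y_sub_lt_or (hW : IntegralCoeffs W v) {x₁ y₁ x₂ y₂ : K}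
    (h₁ : W.Equation x₁ y₁) (h₂ : W.Equation x₂ y₂)
    (hx₁ : v x₁ ≤ 1) (hy₁ : v y₁ ≤ 1) (hx₂ : v x₂ ≤ 1) (hy₂ : v y₂ ≤ 1)
    (hx : v (x₁ - x₂) < 1) :
    v (y₁ - y₂) < 1 ∨ v (y₁ - W.negY x₂ y₂) < 1 := by
  set g : K := x₁ ^ 2 + x₁ * x₂ + x₂ ^ 2 + W.a₂ * (x₁ + x₂) + W.a₄ - W.a₁ * y₁ with hg
  have e₁ := (Affine.equation_iff x₁ y₁).mp h₁
  have e₂ := (Affine.equation_iff x₂ y₂).mp h₂
  have key : (y₁ - y₂) * (y₁ - W.negY x₂ y₂) = (x₁ - x₂) * g := by
    simp only [hg, negY]; linear_combination e₁ - e₂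
  have hg1 : v g ≤ 1 := by
    simp only [hg]
    refine val_sub_le_one (val_add_le_one (val_add_le_one (val_add_le_one (val_add_le_one ?_ ?_)
      ?_) ?_) hW.a₄) (val_mul_le_one hW.a₁ hy₁)
    · rw [pow_two]; exact val_mul_le_one hx₁ hx₁
    · exact val_mul_le_one hx₁ hx₂
    · rw [pow_two]; exact val_mul_le_one hx₂ hx₂
    · exact val_mul_le_one hW.a₂ (val_add_le_one hx₁ hx₂)
  have hprod : v ((y₁ - y₂) * (y₁ - W.negY x₂ y₂)) < 1 := by
    rw [key]; exact val_mul_lt_one_left hx hg1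
  by_contra hcon
  rw [not_or, not_lt, not_lt] at hcon
  rw [map_mul] at hprod
  have : (1 : Γ₀) ≤ v (y₁ - y₂) * v (y₁ - W.negY x₂ y₂) := by
    calc (1 : Γ₀) = 1 * 1 := (one_mul 1).symm
      _ ≤ v (y₁ - y₂) * v (y₁ - W.negY x₂ y₂) := mul_le_mul' hcon.1 hcon.2
  exact absurd hprod (not_lt.mpr this)

end valuation

section galois

variable {R S K : Type*} [CommRing R] [CommRing S] [Field K] [DecidableEq K]
  [Algebra R S] [Algebra R K] [Algebra S K] [IsScalarTower R S K]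
  {Γ₀ : Type*} [LinearOrderedCommGroupWithZero Γ₀]
  {W' : Affine R} {v : Valuation K Γ₀}

/-- The duplication congruence `x(2Q) ≡ x(Q)² mod 𝔪` at a point with unit `x`-coordinate. -/
lemma val_dbl_sub_sq_lt_one (hN : NodeTwo (W'⁄K) v) (ha₁ : (W'⁄K).a₁ = 1) {x x₂ : K}
    (hx : v x = 1) (hx₂ : v x₂ ≤ 1)
    (hdbl : x₂ * XId.dblDen (W'⁄K) x = XId.dblNum (W'⁄K) x) :
    v (x₂ - x ^ 2) < 1 := by
  rw [dblNum_eq (W'⁄K) hN.a₃ hN.a₆, dblDen_eq (W'⁄K) hN.a₃ hN.a₆] at hdbl
  have hb₂ : (W'⁄K).b₂ = 1 + 4 * (W'⁄K).a₂ := by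
    simp only [WeierstrassCurve.b₂, ha₁]; ring
  rw [hb₂] at hdbl
  have h4 : v (4 : K) < 1 := val_four_lt_one hN.two
  have hx1 : v x ≤ 1 := hx.le
  -- `x² (x₂ - x²) = r` with `v r < 1`
  set r : K := -(4 * (x₂ * x * (x ^ 2 + (W'⁄K).a₂ * x + (W'⁄K).a₄)))
      + (W'⁄K).a₄ * ((W'⁄K).a₄ - 2 * x ^ 2) with hr
  have e : x ^ 2 * (x₂ - x ^ 2) = r := by
    simp only [hr]; linear_combination hdbl
  have hxx : v (x ^ 2) ≤ 1 := by rw [pow_two]; exact val_mul_le_one hx1 hx1
  have hr1 : v r < 1 := by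
    simp only [hr]
    refine val_add_lt_one ?_ ?_
    · rw [Valuation.map_neg]
      refine val_mul_lt_one_left h4 (val_mul_le_one (val_mul_le_one hx₂ hx1)
        (val_add_le_one (val_add_le_one hxx (val_mul_le_one hN.int.a₂ hx1)) hN.int.a₄))
    · refine val_mul_lt_one_left hN.a₄ (val_sub_le_one hN.int.a₄ ?_)
      exact val_mul_le_one hN.two.le hxx
  have := congrArg v e
  rw [map_mul, map_pow, hx, one_pow, one_mul] at this
  rw [this]; exact hr1

/-- **Frobenius is `± 2` on torsion with nonsingular reduction.**  At a node at the origin in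
residue characteristic two (`a₁ = 1`), let `φ` be congruent to `t ↦ t²` on the integers and let `n`
be a `v`-unit such that every affine `n`-torsion point has unit `x`-coordinate.  Then
`φ Q = 2 Q` or `φ Q = -(2 Q)` for every `n`-torsion point `Q`. -/
theorem frob_smul_eq_two_nsmul_or_neg (hN : NodeTwo (W'⁄K) v) (ha₁ : (W'⁄K).a₁ = 1)
    (φ : K ≃ₐ[S] K) (hφ : ∀ t : K, v t ≤ 1 → v (φ t - t ^ 2) < 1)
    {n : ℕ} (hn : v (n : K) = 1)
    (hunit : ∀ (x y : K) (h : (W'⁄K).Nonsingular x y), n • Point.some x y h = 0 → v x = 1)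
    (Q : (W'⁄K).Point) (hQ : n • Q = 0) :
    φ • Q = 2 • Q ∨ φ • Q = -(2 • Q) := by
  have hodd : Odd n := odd_of_val_eq_one hN.two hn
  rcases Q with _ | ⟨x, y, h⟩
  · left
    have h0 : φ • (0 : (W'⁄K).Point) = 0 := smul_zero φ
    change φ • (0 : (W'⁄K).Point) = 2 • (0 : (W'⁄K).Point)
    rw [h0, smul_zero]
  have hx : v x = 1 := hunit x y h hQ
  have hy : v y ≤ 1 := GoodRed.val_y_le_one hN.int h.1 hx.le
  -- `2Q`
  have h2Q : Point.some x y h + Point.some x y h ≠ 0 :=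
    add_self_ne_zero_of_odd hodd hQ (Point.some_ne_zero h)
  have hyne : y ≠ (W'⁄K).negY x y := fun hy' => h2Q (Point.add_self_of_Y_eq hy')
  obtain ⟨x₂, y₂, h₂, e₂, hdbl, hden⟩ := XId.add_self_some h hyne
  have h2Qn : n • Point.some x₂ y₂ h₂ = 0 := by
    rw [← e₂, smul_add, hQ, add_zero]
  have hx₂ : v x₂ = 1 := hunit x₂ y₂ h₂ h2Qn
  have hy₂ : v y₂ ≤ 1 := GoodRed.val_y_le_one hN.int h₂.1 hx₂.le
  have hc₂ : v (x₂ - x ^ 2) < 1 := val_dbl_sub_sq_lt_one hN ha₁ hx hx₂.le hdbl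
  -- `φ Q`
  have hφns : (W'⁄K).Nonsingular (φ x) (φ y) :=
    (W'.baseChange_nonsingular φ.toAlgHom.injective x y).mpr h
  have hφQ : φ • Point.some x y h = Point.some (φ x) (φ y) hφns := GoodRed.smul_some φ h
  have hφQn : n • Point.some (φ x) (φ y) hφns = 0 := by
    rw [← hφQ, nsmul_algEquiv_smul, hQ, smul_zero]
  have hφx : v (φ x) = 1 := hunit _ _ hφns hφQn
  have hφy : v (φ y) ≤ 1 := GoodRed.val_y_le_one hN.int hφns.1 hφx.le
  have hxx : v (x₂ - φ x) < 1 := by
    have : x₂ - φ x = (x₂ - x ^ 2) + -(φ x - x ^ 2) := by ring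
    rw [this]
    exact val_add_lt_one hc₂ (by rw [Valuation.map_neg]; exact hφ x hx.le)
  -- nonsingular reduction of `2Q`
  have hns : v ((W'⁄K).a₁ * y₂ - (3 * x₂ ^ 2 + 2 * (W'⁄K).a₂ * x₂ + (W'⁄K).a₄)) = 1 ∨
      v (2 * y₂ + (W'⁄K).a₁ * x₂ + (W'⁄K).a₃) = 1 := by
    right
    rw [hN.a₃, add_zero, ha₁, one_mul]
    have h2y : v (2 * y₂) < 1 := val_mul_lt_one_left hN.two hy₂
    rw [v.map_add_eq_of_lt_right (by rw [hx₂]; exact h2y), hx₂]
  have e2 : (2 : ℕ) • Point.some x y h = Point.some x₂ y₂ h₂ := by rw [two_nsmul, e₂]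
  rw [hφQ, e2]
  rcases val_y_sub_lt_or hN.int h₂.1 hφns.1 hx₂.le hy₂ hφx.le hφy hxx with hyy | hyy
  · -- same reduction
    left
    have hker := inKer_sub_of_same_reduction hN.int h₂ hφns hx₂.le hy₂ hφx.le hφy hxx hyy hns
    have hn0 : n • (Point.some x₂ y₂ h₂ - Point.some (φ x) (φ y) hφns) = 0 := by
      rw [smul_sub, h2Qn, hφQn, sub_zero]
    have h0 := C1b.eq_zero_of_inKer_of_nsmul_eq_zero hN.int n hn _ hker hn0
    exact (sub_eq_zero.mp h0).symm
  · -- opposite reductions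
    right
    have hnegns : (W'⁄K).Nonsingular (φ x) ((W'⁄K).negY (φ x) (φ y)) :=
      (nonsingular_neg ..).mpr hφns
    have hneg : -Point.some (φ x) (φ y) hφns =
        Point.some (φ x) ((W'⁄K).negY (φ x) (φ y)) hnegns := rfl
    have hny : v ((W'⁄K).negY (φ x) (φ y)) ≤ 1 :=
      GoodRed.val_y_le_one hN.int hnegns.1 hφx.le
    have hker := inKer_sub_of_same_reduction hN.int h₂ hnegns hx₂.le hy₂ hφx.le hny hxx hyy hns
    rw [← hneg, sub_neg_eq_add] at hker
    have hn0 : n • (Point.some x₂ y₂ h₂ + Point.some (φ x) (φ y) hφns) = 0 := by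
      rw [smul_add, h2Qn, hφQn, add_zero]
    have h0 := C1b.eq_zero_of_inKer_of_nsmul_eq_zero hN.int n hn _ hker hn0
    rw [add_comm] at h0
    exact eq_neg_of_add_eq_zero_left h0

end galois

section linear

/-- A linear endomorphism `Φ` of a plane over `𝔽_p` (`p` odd) with `Φ x = 2 x ∨ Φ x = -(2 x)` for
every `x` is `± 2`, hence has determinant `4`. -/
theorem det_eq_four_of_forall_eq_or_eq_neg {p : ℕ} [Fact p.Prime] (hp2 : p ≠ 2)
    {V : Type*} [AddCommGroup V] [Module (ZMod p) V]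
    (hdim : Module.finrank (ZMod p) V = 2) (Φ : V →ₗ[ZMod p] V)
    (h : ∀ x : V, Φ x = (2 : ZMod p) • x ∨ Φ x = -((2 : ZMod p) • x)) :
    LinearMap.det Φ = 4 := by
  have h2 : (2 : ZMod p) ≠ 0 := by
    intro h0
    have : ((2 : ℕ) : ZMod p) = 0 := by exact_mod_cast h0
    rw [ZMod.natCast_eq_zero_iff] at this
    exact hp2 ((Nat.prime_dvd_prime_iff_eq Fact.out Nat.prime_two).mp this)
  have h4 : (4 : ZMod p) ≠ 0 := by
    have : (4 : ZMod p) = 2 * 2 := by norm_num
    rw [this]; exact mul_ne_zero h2 h2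
  -- a vector with both `Φ x = 2x` and `Φ x = -2x` is zero
  have hboth : ∀ x : V, (2 : ZMod p) • x = -((2 : ZMod p) • x) → x = 0 := by
    intro x hx
    have : (4 : ZMod p) • x = 0 := by
      have h' : (2 : ZMod p) • x + (2 : ZMod p) • x = 0 := by
        nth_rewrite 1 [hx]; exact neg_add_cancel _
      rw [← add_smul] at h'
      have e : (2 : ZMod p) + 2 = 4 := by norm_num
      rwa [e] at h'
    exact (smul_eq_zero.mp this).resolve_left h4
  have hscalar : (∀ x : V, Φ x = (2 : ZMod p) • x) ∨ (∀ x : V, Φ x = -((2 : ZMod p) • x)) := by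
    by_contra hcon
    rw [not_or] at hcon
    obtain ⟨⟨x, hx⟩, ⟨y, hy⟩⟩ := And.intro (not_forall.mp hcon.1) (not_forall.mp hcon.2)
    have hx' : Φ x = -((2 : ZMod p) • x) := (h x).resolve_left hx
    have hy' : Φ y = (2 : ZMod p) • y := (h y).resolve_right hy
    rcases h (x + y) with hs | hs
    · rw [map_add, hx', hy', smul_add] at hs
      have : (2 : ZMod p) • x = -((2 : ZMod p) • x) := by
        have := add_right_cancel hs
        exact this.symm
      have hx0 := hboth x this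
      apply hx
      rw [hx0, map_zero, smul_zero]
    · rw [map_add, hx', hy', smul_add, neg_add] at hs
      have : (2 : ZMod p) • y = -((2 : ZMod p) • y) := add_left_cancel hs
      have hy0 := hboth y this
      apply hy
      rw [hy0, map_zero, smul_zero, neg_zero]
  rcases hscalar with hs | hs
  · have : Φ = (2 : ZMod p) • (LinearMap.id : V →ₗ[ZMod p] V) := by
      ext x; rw [hs x]; rfl
    rw [this, LinearMap.det_smul, hdim, LinearMap.det_id]
    norm_num
  · have : Φ = (-2 : ZMod p) • (LinearMap.id : V →ₗ[ZMod p] V) := by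
      ext x; rw [hs x, LinearMap.smul_apply, LinearMap.id_apply, neg_smul]
    rw [this, LinearMap.det_smul, hdim, LinearMap.det_id]
    norm_num

end linear

end Fermat.Agent.Ribet.H852
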