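import Fermat.Agent.Ribet.H852.OddVacAbs
import Fermat.Agent.S13.H129.AtTwoFrey
import Fermat.Agent.S13.H13.T7
import Fermat.Agent.A2.IF.H429.Inertia
import Fermat.Prelude.Def_EllipticCurve_FrobeniusTrace

/-!
# WALL-q, leaf ODD-VACUOUS, core (helper852): the Frey torsion `E[p]` is RAMIFIED at `2`

`frey_ramified_at_two` : for a place `A` of `ℚ̄` over `2` with a Frobenius element `φ`, if
`E[p]` has rank two and `det ρ̄(φ) = 2`, then inertia at `A` does NOT act trivially on `E[p]`.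

Proof.  Assume inertia acts trivially.
1. (`val_x_eq_one_of_inertia_fixed`) The `x`-coordinate of a nonzero `Q ∈ E[p]` lies in the
   inertia field, so `v(x) = v(2)^k` (`A2.IF.H429.exists_zpow_of_mem_inertiaField`); the node law
   at `2` (`S13.H13.frey_nodeLaw`: `v(x)^p ∈ v(a₄)^{2ℤ}`, `v(a₄) < v(x) < 1`) and
   `v(a₄) = v(2)^{pβ - 4}` exclude `v(x) < 1` (`S13.H11.frey_arith_contra`).  So `v(x) = 1`.
2. (`OddVacAbs.frob_smul_eq_two_nsmul_or_neg`) `φ Q = ± 2 Q` for all `Q ∈ E[p]`.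
3. (`OddVacAbs.det_eq_four_of_forall_eq_or_eq_neg`) `det ρ̄(φ) = 4`, so `4 = 2` in `𝔽_p`.
-/

set_option autoImplicit false
set_option linter.unusedSectionVars false
set_option linter.unusedVariables false
set_option linter.style.haveILetI false

namespace Fermat.Agent.Ribet.H852

open WeierstrassCurve WeierstrassCurve.Affine WeierstrassCurve.Affine.Point
open Fermat.Agent.S05 Fermat.Agent.S05.SameRed Fermat.Agent.S13 Fermat.Agent.S13.H129

/-- `ℚ̄` (local abbreviation). -/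
local notation "Qb" => AlgebraicClosure ℚ

variable (P : FreyPackage)

/-- `v(a₄) = v(2)^(pβ - 4)` at a place of `ℚ̄` over `2`. -/
lemma frey_val_a₄_Qbar (A : ValuationSubring Qb) (h2 : A.valuation (2 : Qb) < 1) :
    ∃ β : ℕ, 1 ≤ β ∧
      A.valuation (P.freyCurve⁄Qb).a₄ = A.valuation (2 : Qb) ^ ((P.p : ℤ) * β - 4) := by
  set w : Valuation ℚ A.ValueGroup := A.valuation.comap (algebraMap ℚ Qb) with hw
  have hw2 : w (2 : ℚ) = A.valuation (2 : Qb) := by
    rw [hw, Valuation.comap_apply]; simp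
  have h2' : w (2 : ℚ) < 1 := by rw [hw2]; exact h2
  obtain ⟨β, hβ, hval⟩ := H11.frey_val_a₄ P (w := w) h2'
  refine ⟨β, hβ, ?_⟩
  have ha₄ : (P.freyCurve⁄Qb).a₄ = algebraMap ℚ Qb P.freyCurve.a₄ := by
    simp [WeierstrassCurve.baseChange]
  rw [ha₄, ← hw2, ← hval, hw, Valuation.comap_apply]

/-- **Step 1.**  A `p`-torsion point of the Frey curve fixed by inertia at a place over `2` has
unit `x`-coordinate. -/
theorem val_x_eq_one_of_inertia_fixed (A : ValuationSubring Qb) (hA : A.LiesOverPrime 2)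
    {x y : Qb} (h : (P.freyCurve⁄Qb).Nonsingular x y) (hQ : P.p • Point.some x y h = 0)
    (hfix : ∀ σ ∈ A.inertiaSubgroupIn ℚ,
      σ • (Point.some x y h : (P.freyCurve⁄Qb).Point) = Point.some x y h) :
    A.valuation x = 1 := by
  have hN := frey_nodeTwo (K := Qb) P A hA
  have hp := frey_val_p (K := Qb) P A hA
  have h2 : A.valuation (2 : Qb) < 1 := hN.two
  have hx1 := (C1b.val_x_le_one_of_nsmul_eq_zero hN.int hp h hQ).1
  refine le_antisymm hx1 (not_lt.mp fun hlt => ?_)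
  obtain ⟨hlo, j, hj⟩ := H13.frey_nodeLaw P hA x y h hQ hlt
  have hx0 : x ≠ 0 := by
    rintro rfl
    rw [_root_.map_zero] at hlo
    exact absurd hlo (not_lt.mpr zero_le)
  -- `x` lies in the inertia field
  have hxI : x ∈ A2.IF.H429.inertiaField A := by
    rw [A2.IF.H429.mem_inertiaField_iff]
    intro τ hτ
    have := hfix τ hτ
    rw [GoodRed.smul_some] at this
    exact (Point.some.inj this).1
  obtain ⟨k, hk⟩ := A2.IF.H429.exists_zpow_of_mem_inertiaField A 2 Nat.prime_two hA x hxI hx0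
  have h20 : A.valuation (2 : Qb) ≠ 0 := by
    rw [Valuation.ne_zero_iff]; norm_num
  have hxk : A.valuation x = A.valuation (2 : Qb) ^ k := by
    rw [map_div₀, map_zpow₀] at hk
    have hk' : A.valuation (((2 : ℕ) : Qb)) = A.valuation (2 : Qb) := by norm_num
    rw [hk'] at hk
    have hne : A.valuation (2 : Qb) ^ k ≠ 0 := zpow_ne_zero k h20
    rw [div_eq_one_iff_eq hne] at hk
    exact hk
  obtain ⟨β, hβ, hval⟩ := frey_val_a₄_Qbar P A h2
  -- transport to a valuation on `ℚ` to use the `zpow` calculus of `S13.H11.ValQ`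
  set w : Valuation ℚ A.ValueGroup := A.valuation.comap (algebraMap ℚ Qb) with hw
  have hw2 : w (2 : ℚ) = A.valuation (2 : Qb) := by
    rw [hw, Valuation.comap_apply]; simp
  have h2' : w (2 : ℚ) < 1 := by rw [hw2]; exact h2
  rw [hxk, ← hw2] at hlt hj hlo
  rw [hval, ← hw2] at hlo hj
  have h0 : 0 < k := (H11.zpow_lt_one_iff h2' k).mp hlt
  have h1 : k < (P.p : ℤ) * β - 4 := (H11.zpow_lt_zpow_iff h2' _ _).mp hlo
  have e : (P.p : ℤ) * k = 2 * ((P.p : ℤ) * β - 4) * j := by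
    have e1 : (w (2 : ℚ) ^ k) ^ P.p = w 2 ^ (k * (P.p : ℤ)) := by
      rw [zpow_mul, zpow_natCast]
    have e2 : ((w (2 : ℚ) ^ ((P.p : ℤ) * β - 4)) ^ 2) ^ j =
        w 2 ^ (((P.p : ℤ) * β - 4) * 2 * j) := by
      rw [zpow_mul, zpow_mul]
      norm_cast
    rw [e1, e2, H11.zpow_eq_zpow_iff h2'] at hj
    linarith
  exact H11.frey_arith_contra P β k j h0 h1 e

/-- **The Frey torsion is ramified at `2`.**  `hdim` is (DIM), `hdet` is (DETF) at `q = 2`. -/
theorem frey_ramified_at_two (A : ValuationSubring Qb) (hA : A.LiesOverPrime 2)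
    (φ : Qb ≃ₐ[ℚ] Qb) (hφ : A.IsFrobeniusAt φ 2)
    (hdim : Module.finrank (ZMod P.p) (Submodule.torsionBy ℤ (P.freyCurve⁄Qb).Point P.p) = 2)
    (hdet : LinearMap.det
      (galoisRepModuleEnd (S := ℚ) (K := Qb) P.freyCurve P.p φ) = ((2 : ℕ) : ZMod P.p))
    (hunr : ∀ σ ∈ A.inertiaSubgroupIn ℚ,
      ∀ x : Submodule.torsionBy ℤ (P.freyCurve⁄Qb).Point P.p, σ • x = x) : False := by
  haveI : Fact P.p.Prime := ⟨P.pp⟩
  have hp2 : P.p ≠ 2 := by have := P.hp5; omega
  have hN := frey_nodeTwo (K := Qb) P A hA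
  have hp := frey_val_p (K := Qb) P A hA
  have ha₁ : (P.freyCurve⁄Qb).a₁ = 1 := frey_a₁ (K := Qb) P
  -- every `p`-torsion point has unit `x`
  have hunit : ∀ (x y : Qb) (h : (P.freyCurve⁄Qb).Nonsingular x y),
      P.p • Point.some x y h = 0 → A.valuation x = 1 := by
    intro x y h hQ
    refine val_x_eq_one_of_inertia_fixed P A hA h hQ (fun σ hσ => ?_)
    have hmem : (Point.some x y h : (P.freyCurve⁄Qb).Point) ∈
        Submodule.torsionBy ℤ (P.freyCurve⁄Qb).Point P.p := by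
      rw [Submodule.mem_torsionBy_iff, natCast_zsmul]; exact hQ
    exact congrArg Subtype.val (hunr σ hσ ⟨_, hmem⟩)
  -- Frobenius is congruent to squaring
  have hφ' : ∀ t : Qb, A.valuation t ≤ 1 → A.valuation (φ t - t ^ 2) < 1 := by
    intro t ht
    obtain ⟨hσD, hF⟩ := hφ
    have htA : t ∈ A := (A.valuation_le_one_iff t).mp ht
    have h2 := hF (IsLocalRing.residue A ⟨t, htA⟩)
    rw [← IsLocalRing.ResidueField.residue_smul, ← map_pow] at h2
    have h3 : ((⟨φ, hσD⟩ : A.decompositionSubgroup ℚ) • (⟨t, htA⟩ : A)) - (⟨t, htA⟩ : A) ^ 2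
        ∈ IsLocalRing.maximalIdeal A := by
      rw [← Ideal.Quotient.eq]
      exact h2
    rw [ValuationSubring.valuation_lt_one_iff] at h3
    exact h3
  -- `φ = ± 2` pointwise
  have hpm : ∀ X : Submodule.torsionBy ℤ (P.freyCurve⁄Qb).Point P.p,
      galoisRepModuleEnd (S := ℚ) (K := Qb) P.freyCurve P.p φ X = (2 : ZMod P.p) • X ∨
      galoisRepModuleEnd (S := ℚ) (K := Qb) P.freyCurve P.p φ X = -((2 : ZMod P.p) • X) := by
    intro X
    have hX : P.p • (X : (P.freyCurve⁄Qb).Point) = 0 := by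
      have := (Submodule.mem_torsionBy_iff _ _).mp X.2
      rwa [natCast_zsmul] at this
    have h2X : (2 : ZMod P.p) • X = (2 : ℕ) • X := by
      have : ((2 : ℕ) : ZMod P.p) • X = (2 : ℕ) • X := Nat.cast_smul_eq_nsmul (ZMod P.p) 2 X
      rw [← this]; norm_num
    rw [galoisRepModuleEnd_apply, h2X]
    rcases frob_smul_eq_two_nsmul_or_neg (S := ℚ) hN ha₁ φ hφ' hp hunit
      (X : (P.freyCurve⁄Qb).Point) hX with h | h
    · left; exact Subtype.ext h
    · right; exact Subtype.ext h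
  have h4 := det_eq_four_of_forall_eq_or_eq_neg hp2 hdim _ hpm
  rw [hdet] at h4
  -- `2 = 4` in `𝔽_p`
  have h2 : ((2 : ℕ) : ZMod P.p) = 0 := by
    have e : ((2 : ℕ) : ZMod P.p) = (4 : ZMod P.p) - ((2 : ℕ) : ZMod P.p) := by
      push_cast; norm_num
    rw [e, ← h4]; simp
  rw [ZMod.natCast_eq_zero_iff] at h2
  exact hp2 ((Nat.prime_dvd_prime_iff_eq P.pp Nat.prime_two).mp h2)

end Fermat.Agent.Ribet.H852
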