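import Fermat.Agent.Ribet.H852.OddVacCore
import Fermat.Agent.Ribet.Spec
import Fermat.Agent.S29.Parts

/-!
# WALL-q, leaf ODD-VACUOUS, conditional glue (helper852)

`oddVacuous_of : RawES → (PL) → (DETF) → (DIM) → [body of H158.WallQ.OddVacuousStatement]`.
The Frey torsion `E[p]` does not embed Galois-equivariantly in `J₀(N)` for odd `N`:
`J₀(N)[p]` is unramified at `2` (raw Eichler–Shimura at `ℓ = 2 ∤ N p`), but `E[p]` is ramified
at `2` (`frey_ramified_at_two`).  The Hecke-equivariance of the embedding is not used.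
-/

set_option autoImplicit false

namespace Fermat.Agent.Ribet.H852

open Fermat.Agent.Ribet Fermat.Agent.Ribet.Spec

/-- **ODD-VACUOUS from the row inputs** (all four are on main, unconditional). -/
theorem oddVacuous_of (hES : Fermat.Agent.S29.RawESStatement) (hPl : PlacesStatement)
    (hDet : DetFrobStatement) (hDim : TorsionRankStatement) :
    ∀ (P : FreyPackage) (N : ℕ) [NeZero N], ¬ 2 ∣ N →
      ∀ (S : Finset ℕ) (a : ℕ → ℤ), ¬ FreyEmbedsIn P N S a := by
  intro P N _ hN S a hemb
  obtain ⟨ι, hinj, hgal, -⟩ := hemb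
  obtain ⟨A, hA, φ, hφ⟩ := hPl 2 Nat.prime_two
  have hp5 := P.hp5
  have hp2 : (2 : ℕ) ≠ P.p := by omega
  have hdet := hDet P 2 Nat.prime_two hp2 A hA φ hφ
  have hdim := hDim P
  have hndvd : ¬ 2 ∣ N * P.p := by
    intro h
    rcases (Nat.Prime.dvd_mul Nat.prime_two).mp h with h' | h'
    · exact hN h'
    · exact hp2 ((Nat.prime_dvd_prime_iff_eq Nat.prime_two P.pp).mp h')
  have hES' := (hES N P.p P.pp 2 Nat.prime_two hndvd A hA).1
  refine frey_ramified_at_two P A hA φ hφ hdim hdet (fun σ hσ x => ?_)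
  apply hinj
  rw [hgal]
  refine hES' σ hσ (ι x) ?_
  have hx : (P.p : ℤ) • x = 0 := by
    apply Subtype.ext
    exact (Submodule.mem_torsionBy_iff _ _).mp x.2
  rw [← map_zsmul, hx, _root_.map_zero]

end Fermat.Agent.Ribet.H852
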